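/-
S33lib / Kum / Sub  (helper7)   — Project LSp, Track B, items (P1) + (P2) of `PFiltStmt`.

THE KUMMER SUBGROUP of a nodal datum.  For `m : ℕ` (for us `m = p ^ n`, `p` the RESIDUE
characteristic) let

  `kumSub D m = { [D₀] ∈ Pic⁰(F) | ∃ z, div z = m • D₀, red₁ z = 1, red₂ z = 1 }`

(classically: the `m`-torsion of the formal group of the Jacobian = the `μ_m`-torsors on the nodal
model which are trivial on the special fibre).  From the LANDED `LSb` Kummer lemmas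
(`LSb.kummerStatement`, `NodalDatum.IsInertial.isKummerUnit_div`, both valid for EVERY `m` —
invertibility of `m` in the residue field is used in `LSb` only in the Čech core) we get, for
inertial `σ τ`:

* (P1) `kumSub D m` is stable under `σ`;
* (P2) `(σ - 1)(τ - 1) x ∈ kumSub D m` for every `x` with `m • x = 0`.

No annuli, no place-level reduction, no component group.
-/
import Fermat.Agent.LSb.Core.Kummer1
import Fermat.Agent.LSb.Core.Kummer2

set_option autoImplicit false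

noncomputable section

namespace Fermat.Agent.S33lib.Kum

open AlgebraicCurve Fermat.Agent.LSb

variable {L : Type*} [Field L] {A : ValuationSubring L}
variable {F : Type*} [Field F] [Algebra L F]
variable {F₁ F₂ : Type*} [Field F₁] [Field F₂]
variable [Algebra (IsLocalRing.ResidueField A) F₁] [Algebra (IsLocalRing.ResidueField A) F₂]

/-- `z` is a ONE-UNIT of the sup-norm ball with `div z = m • D₀`. -/
structure IsOneUnitFor (D : NodalDatum A F F₁ F₂) (m : ℕ) (D₀ : Divisor L F) (z : F) : Prop where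
  ne_zero : z ≠ 0
  ord_eq : ∀ P : Place L F, P.ord z = (m : ℤ) * D₀ P
  red₁ : D.V₁.redF z = 1
  red₂ : D.V₂.redF z = 1

namespace IsOneUnitFor

variable {D : NodalDatum A F F₁ F₂} {m : ℕ} {D₀ D₀' : Divisor L F} {z z' : F}

theorem mem₁ (h : IsOneUnitFor D m D₀ z) : z ∈ D.V₁.O :=
  D.V₁.mem_of_redF_ne_zero (by rw [h.red₁]; exact one_ne_zero)

theorem mem₂ (h : IsOneUnitFor D m D₀ z) : z ∈ D.V₂.O :=
  D.V₂.mem_of_redF_ne_zero (by rw [h.red₂]; exact one_ne_zero)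

theorem zero (D : NodalDatum A F F₁ F₂) (m : ℕ) : IsOneUnitFor D m (0 : Divisor L F) 1 where
  ne_zero := one_ne_zero
  ord_eq P := by simp
  red₁ := D.V₁.redF_one
  red₂ := D.V₂.redF_one

theorem add (h : IsOneUnitFor D m D₀ z) (h' : IsOneUnitFor D m D₀' z') :
    IsOneUnitFor D m (D₀ + D₀') (z * z') where
  ne_zero := mul_ne_zero h.ne_zero h'.ne_zero
  ord_eq P := by
    rw [P.ord_mul h.ne_zero h'.ne_zero, h.ord_eq, h'.ord_eq, Finsupp.add_apply, mul_add]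
  red₁ := by rw [D.V₁.redF_mul h.mem₁ h'.mem₁, h.red₁, h'.red₁, one_mul]
  red₂ := by rw [D.V₂.redF_mul h.mem₂ h'.mem₂, h.red₂, h'.red₂, one_mul]

theorem neg (h : IsOneUnitFor D m D₀ z) : IsOneUnitFor D m (-D₀) z⁻¹ where
  ne_zero := inv_ne_zero h.ne_zero
  ord_eq P := by rw [P.ord_inv, h.ord_eq, Finsupp.neg_apply, mul_neg]
  red₁ := by rw [D.V₁.redF_inv (by rw [h.red₁]; exact one_ne_zero), h.red₁, inv_one]
  red₂ := by rw [D.V₂.redF_inv (by rw [h.red₂]; exact one_ne_zero), h.red₂, inv_one]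

/-- a one-unit is a Kummer unit -/
theorem isKummerUnit (h : IsOneUnitFor D m D₀ z) : IsKummerUnit D m z where
  ne_zero := h.ne_zero
  dvd_ord P := ⟨D₀ P, h.ord_eq P⟩
  red₁ := ⟨1, one_ne_zero, by rw [h.red₁, map_one]⟩
  red₂ := ⟨1, one_ne_zero, by rw [h.red₂, map_one]⟩

/-- the exponent can be multiplied -/
theorem pow (h : IsOneUnitFor D m D₀ z) (m' : ℕ) : IsOneUnitFor D (m * m') D₀ (z ^ m') where
  ne_zero := pow_ne_zero _ h.ne_zero
  ord_eq P := by
    rw [S18lib.Cech.ord_pow, h.ord_eq]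
    push_cast
    ring
  red₁ := by rw [D.V₁.redF_pow h.mem₁, h.red₁, one_pow]
  red₂ := by rw [D.V₂.redF_pow h.mem₂, h.red₂, one_pow]

/-- transport by an inertial automorphism -/
theorem smul {σ : SemilinearAut L F} (hσ : D.IsInertial σ) (h : IsOneUnitFor D m D₀ z) :
    IsOneUnitFor D m (σ • D₀) (σ • z) where
  ne_zero := by
    rw [SemilinearAut.smul_def]
    exact (map_ne_zero _).2 h.ne_zero
  ord_eq P := by
    rw [NodalDatum.IsInertial.ord_smul_eq, h.ord_eq, SemilinearAut.divisor_smul_apply]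
  red₁ := by rw [hσ.red₁ z h.mem₁, h.red₁]
  red₂ := by rw [hσ.red₂ z h.mem₂, h.red₂]

end IsOneUnitFor

/-- **The Kummer subgroup** of `Pic⁰(F)` attached to a nodal datum and an exponent `m`. -/
def kumSub (D : NodalDatum A F F₁ F₂) (m : ℕ) : AddSubgroup (Pic0 L F) where
  carrier := {x | ∃ (D₀ : Divisor.degZero (K := L) (F := F)) (z : F),
    Pic0.mk D₀ = x ∧ IsOneUnitFor D m (D₀ : Divisor L F) z}
  zero_mem' := ⟨0, 1, rfl, IsOneUnitFor.zero D m⟩
  add_mem' := by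
    rintro x y ⟨D₀, z, rfl, h⟩ ⟨D₀', z', rfl, h'⟩
    exact ⟨D₀ + D₀', z * z', rfl, h.add h'⟩
  neg_mem' := by
    rintro x ⟨D₀, z, rfl, h⟩
    exact ⟨-D₀, z⁻¹, rfl, h.neg⟩

theorem mem_kumSub {D : NodalDatum A F F₁ F₂} {m : ℕ} {x : Pic0 L F} :
    x ∈ kumSub D m ↔ ∃ (D₀ : Divisor.degZero (K := L) (F := F)) (z : F),
      Pic0.mk D₀ = x ∧ IsOneUnitFor D m (D₀ : Divisor L F) z := Iff.rfl

/-- the Kummer subgroup is killed by `m` -/
theorem nsmul_eq_zero_of_mem {D : NodalDatum A F F₁ F₂} {m : ℕ} {x : Pic0 L F}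
    (hx : x ∈ kumSub D m) : m • x = 0 := by
  obtain ⟨D₀, z, rfl, h⟩ := hx
  show Pic0.mk (m • D₀) = 0
  apply (QuotientAddGroup.eq_zero_iff _).2
  rw [AddSubgroup.mem_addSubgroupOf]
  refine ⟨z, h.ne_zero, fun P => ?_⟩
  rw [h.ord_eq]
  simp

/-- monotonicity in the exponent -/
theorem kumSub_le_mul (D : NodalDatum A F F₁ F₂) (m m' : ℕ) : kumSub D m ≤ kumSub D (m * m') := by
  rintro x ⟨D₀, z, rfl, h⟩
  exact ⟨D₀, z ^ m', rfl, h.pow m'⟩

/-- **(P1)** the Kummer subgroup is stable under inertial automorphisms. -/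
theorem smul_mem_kumSub {D : NodalDatum A F F₁ F₂} {σ : SemilinearAut L F} (hσ : D.IsInertial σ)
    {m : ℕ} {x : Pic0 L F} (hx : x ∈ kumSub D m) : σ • x ∈ kumSub D m := by
  obtain ⟨D₀, z, rfl, h⟩ := hx
  exact ⟨SemilinearAut.degZeroSMulHom σ D₀, σ • z, (SemilinearAut.pic0_smul_mk σ D₀).symm,
    h.smul hσ⟩

/-- **(P2), divisor form**: if `m • D₀ = div f` then `(σ - 1)(τ - 1) D₀` carries a one-unit. -/
theorem exists_isOneUnitFor_comm {D : NodalDatum A F F₁ F₂} {σ τ : SemilinearAut L F}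
    (hσ : D.IsInertial σ) (hτ : D.IsInertial τ) {m : ℕ} {D₀ : Divisor L F} {f : F} (hf0 : f ≠ 0)
    (hfdiv : ∀ P : Place L F, (m • D₀) P = P.ord f) :
    ∃ z : F, IsOneUnitFor D m (σ • (τ • D₀ - D₀) - (τ • D₀ - D₀)) z := by
  have hτf0 : τ • f ≠ 0 := by
    rw [SemilinearAut.smul_def]
    exact (map_ne_zero _).2 hf0
  set E₁ : Divisor L F := τ • D₀ - D₀ with hE₁
  set u : F := τ • f * f⁻¹ with hu
  have hu0 : u ≠ 0 := mul_ne_zero hτf0 (inv_ne_zero hf0)
  -- `div u = m E₁`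
  have hudiv : ∀ P : Place L F, P.ord u = (m : ℤ) * E₁ P := by
    intro P
    rw [hu, P.ord_mul hτf0 (inv_ne_zero hf0), P.ord_inv, NodalDatum.IsInertial.ord_smul_eq,
      ← hfdiv, ← hfdiv, hE₁, Finsupp.sub_apply, SemilinearAut.divisor_smul_apply,
      Finsupp.smul_apply, Finsupp.smul_apply, nsmul_eq_mul, nsmul_eq_mul]
    ring
  obtain ⟨hb₁, hb₂⟩ := kummerStatement D τ hτ f hf0
  have hKu : IsKummerUnit D m u := ⟨hu0, fun P => ⟨E₁ P, hudiv P⟩, hb₁, hb₂⟩
  obtain ⟨hKz, hz₁, hz₂⟩ := hσ.isKummerUnit_div hKu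
  refine ⟨σ • u * u⁻¹, hKz.ne_zero, fun P => ?_, hz₁, hz₂⟩
  have hσu0 : σ • u ≠ 0 := by
    rw [SemilinearAut.smul_def]
    exact (map_ne_zero _).2 hu0
  have key : (σ • E₁ - E₁) P = E₁ (σ⁻¹ • P) - E₁ P := by
    rw [Finsupp.sub_apply, SemilinearAut.divisor_smul_apply]
  rw [P.ord_mul hσu0 (inv_ne_zero hu0), P.ord_inv, NodalDatum.IsInertial.ord_smul_eq, hudiv,
    hudiv, key]
  ring

/-- **(P2)** for inertial `σ τ` and `x` killed by `m`: `(σ - 1)(τ - 1) x ∈ kumSub D m`. -/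
theorem comm_mem_kumSub {D : NodalDatum A F F₁ F₂} {σ τ : SemilinearAut L F}
    (hσ : D.IsInertial σ) (hτ : D.IsInertial τ) {m : ℕ} {x : Pic0 L F} (hx : m • x = 0) :
    σ • (τ • x - x) - (τ • x - x) ∈ kumSub D m := by
  obtain ⟨D₀, rfl⟩ := Pic0.mk_surjective x
  -- `m D₀` is principal
  have hprinc : m • (D₀ : Divisor L F) ∈ Divisor.principal (K := L) (F := F) := by
    have h1 : Pic0.mk (m • D₀) = 0 := hx
    have h2 := (QuotientAddGroup.eq_zero_iff _).1 h1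
    rw [AddSubgroup.mem_addSubgroupOf] at h2
    simpa using h2
  obtain ⟨f, hf0, hfdiv⟩ := hprinc
  obtain ⟨z, hz⟩ := exists_isOneUnitFor_comm hσ hτ hf0 hfdiv
  set E₁ : Divisor.degZero (K := L) (F := F) := SemilinearAut.degZeroSMulHom τ D₀ - D₀ with hE₁
  refine ⟨SemilinearAut.degZeroSMulHom σ E₁ - E₁, z, ?_, ?_⟩
  · rw [SemilinearAut.pic0_smul_mk τ D₀]
    show _ = σ • Pic0.mk E₁ - Pic0.mk E₁
    rw [SemilinearAut.pic0_smul_mk σ E₁]
    rfl
  · have e : ((SemilinearAut.degZeroSMulHom σ E₁ - E₁ : Divisor.degZero (K := L) (F := F)) :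
        Divisor L F) = σ • (τ • (D₀ : Divisor L F) - D₀) - (τ • (D₀ : Divisor L F) - D₀) := by
      simp [hE₁, SemilinearAut.coe_degZeroSMulHom, smul_sub]
    rw [e]
    exact hz

end Fermat.Agent.S33lib.Kum
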