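/-
S33lib / Kum / JZero  (helper7)   — Project LSp, Track B.

The Kummer subgroup on `JZero N = Pic⁰(modularFunctionFieldBar N)` with its `G_ℚ`-action:
(P1) + (P2) of `PFiltStmt` for `K_n := kumSub D (p ^ n)`, for ANY instance of the nodal datum at
level `N` over a valuation ring `A` of `ℚ̄` (`LSb.HasNodalInstance N A`, available from
`LSb.instanceStatement_goodPair` for `N = M * p`, `A ∣ p`).
-/
import Fermat.Agent.S33lib.Kum.Sub
import Fermat.Agent.LSb.Final.Tors

set_option autoImplicit false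

noncomputable section

namespace Fermat.Agent.S33lib.Kum

open AlgebraicCurve ModularCurve Fermat.Agent.LSb

local notation "Qb" => AlgebraicClosure ℚ
local notation "GQ" => (AlgebraicClosure ℚ ≃ₐ[ℚ] AlgebraicClosure ℚ)

variable {N : ℕ} {A : ValuationSubring Qb}
variable {F₁ F₂ : Type*} [Field F₁] [Field F₂]
variable [Algebra (IsLocalRing.ResidueField A) F₁] [Algebra (IsLocalRing.ResidueField A) F₂]

/-- (P1) on `JZero N`. -/
theorem jZero_smul_mem {D : NodalDatum A (modularFunctionFieldBar N) F₁ F₂} (σ : GQ)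
    (hσ : D.IsInertial (arithmeticGalois (modularFunctionFieldFull N) σ)) {m : ℕ} {x : JZero N}
    (hx : x ∈ kumSub D m) : σ • x ∈ kumSub D m := by
  rw [galois_smul_pic0_def]
  exact smul_mem_kumSub hσ hx

/-- (P2) on `JZero N`. -/
theorem jZero_comm_mem {D : NodalDatum A (modularFunctionFieldBar N) F₁ F₂} (σ τ : GQ)
    (hσ : D.IsInertial (arithmeticGalois (modularFunctionFieldFull N) σ))
    (hτ : D.IsInertial (arithmeticGalois (modularFunctionFieldFull N) τ)) {m : ℕ} {x : JZero N}
    (hx : m • x = 0) : σ • (τ • x - x) - (τ • x - x) ∈ kumSub D m := by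
  have h := comm_mem_kumSub hσ hτ hx
  rw [← galois_smul_pic0_def, ← galois_smul_pic0_def] at h
  exact h

/-- **(P1) + (P2), packaged**: from an instance of the nodal datum at level `N` over `A`, a family of
subgroups `K m ≤ JZero N` (`m` the exponent), stable under inertia, killed by `m`, increasing along
divisibility, and containing `(σ - 1)(τ - 1) x` for all `σ τ` in the inertia group and all `x`
killed by `m`. -/
theorem exists_kummer_filtration (H : HasNodalInstance N A) :
    ∃ K : ℕ → AddSubgroup (JZero N),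
      (∀ m, ∀ σ ∈ A.inertiaSubgroupIn ℚ, ∀ x ∈ K m, σ • x ∈ K m) ∧
      (∀ m, ∀ σ ∈ A.inertiaSubgroupIn ℚ, ∀ τ ∈ A.inertiaSubgroupIn ℚ, ∀ x : JZero N,
        m • x = 0 → σ • (τ • x - x) - (τ • x - x) ∈ K m) ∧
      (∀ m, ∀ x ∈ K m, m • x = 0) ∧ (∀ m m', K m ≤ K (m * m')) := by
  obtain ⟨F₁, F₂, _, _, _, _, D, g, g₁, g₂, -, hI⟩ := H
  exact ⟨fun m => kumSub D m, fun m σ hσ x hx => jZero_smul_mem σ (hI σ hσ) hx,
    fun m σ hσ τ hτ x hx => jZero_comm_mem σ τ (hI σ hσ) (hI τ hτ) hx,
    fun m x hx => nsmul_eq_zero_of_mem hx, fun m m' => kumSub_le_mul D m m'⟩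

end Fermat.Agent.S33lib.Kum
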