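/-
S33lib / Kum / Fibre  (helper7)   — Project LSp, Track B, link "KumSub ⊆ germ image", combinatorics.

FIBRE SUMS of a divisor along a map of points, and the reconstruction lemma:
an effective divisor `E` whose fibre sums along `r` are `1` over `g` distinct points `Q i` and `0`
elsewhere is `∑ i, (P i)` with `r (P i) = Q i`.
-/
import Mathlib

set_option autoImplicit false

noncomputable section

namespace Fermat.Agent.S33lib.Kum

open Classical

variable {α β : Type*}

/-- the sum of the multiplicities of `E` over the fibre `r ⁻¹ {b}` -/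
def fibreSum (r : α → β) (b : β) : (α →₀ ℤ) →+ ℤ :=
  Finsupp.liftAddHom fun a => if r a = b then AddMonoidHom.id ℤ else 0

theorem fibreSum_apply (r : α → β) (b : β) (E : α →₀ ℤ) :
    fibreSum r b E = ∑ a ∈ E.support, if r a = b then E a else 0 := by
  rw [fibreSum, Finsupp.liftAddHom_apply, Finsupp.sum]
  refine Finset.sum_congr rfl fun a _ => ?_
  split_ifs <;> simp

@[simp] theorem fibreSum_single (r : α → β) (b : β) (a : α) (n : ℤ) :
    fibreSum r b (Finsupp.single a n) = if r a = b then n else 0 := by
  rw [fibreSum, Finsupp.liftAddHom_apply_single]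
  split_ifs <;> simp

theorem le_fibreSum (r : α → β) {E : α →₀ ℤ} (hE : ∀ a, 0 ≤ E a) (a : α) :
    E a ≤ fibreSum r (r a) E := by
  rw [fibreSum_apply]
  by_cases ha : a ∈ E.support
  · have := Finset.single_le_sum (f := fun a' => if r a' = r a then E a' else 0)
      (fun a' _ => by split_ifs <;> simp [hE a']) ha
    simpa using this
  · rw [Finsupp.notMem_support_iff.1 ha]
    exact Finset.sum_nonneg fun a' _ => by split_ifs <;> simp [hE a']

/-- fibre sums of a sum of `g` points with pairwise distinct images: over a point of the image -/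
theorem fibreSum_sum_single_of_exists (r : α → β) {g : ℕ} (O : Fin g → α)
    (hO : Function.Injective fun i => r (O i)) {b : β} (h : ∃ i, r (O i) = b) :
    fibreSum r b (∑ i, Finsupp.single (O i) 1) = 1 := by
  rw [map_sum]
  simp only [fibreSum_single]
  obtain ⟨i₀, hi₀⟩ := h
  rw [Finset.sum_eq_single i₀]
  · simp [hi₀]
  · intro i _ hne
    rw [if_neg]
    intro h'
    exact hne (hO (h'.trans hi₀.symm))
  · simp

/-- fibre sums of a sum of `g` points: outside the image -/
theorem fibreSum_sum_single_of_forall_ne (r : α → β) {g : ℕ} (O : Fin g → α) {b : β}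
    (h : ∀ i, r (O i) ≠ b) : fibreSum r b (∑ i, Finsupp.single (O i) 1) = 0 := by
  rw [map_sum]
  simp only [fibreSum_single]
  exact Finset.sum_eq_zero fun i _ => by rw [if_neg (h i)]

/-- the total mass `∑ a, E a` -/
def totalSum : (α →₀ ℤ) →+ ℤ := Finsupp.liftAddHom fun _ => AddMonoidHom.id ℤ

theorem totalSum_apply (E : α →₀ ℤ) : totalSum E = ∑ a ∈ E.support, E a := by
  rw [totalSum, Finsupp.liftAddHom_apply, Finsupp.sum]
  rfl

@[simp] theorem totalSum_single (a : α) (n : ℤ) : totalSum (Finsupp.single a n) = n := by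
  rw [totalSum, Finsupp.liftAddHom_apply_single]
  rfl

theorem fibreSum_nonneg (r : α → β) {E : α →₀ ℤ} (hE : ∀ a, 0 ≤ E a) (b : β) :
    0 ≤ fibreSum r b E := by
  rw [fibreSum_apply]
  exact Finset.sum_nonneg fun a _ => by split_ifs <;> simp [hE a]

/-- **degree count**: if the fibres over `g` distinct points carry mass `1` each and the total mass
is `g`, there is no mass elsewhere. -/
theorem fibreSum_eq_zero_of_totalSum (r : α → β) {E : α →₀ ℤ} (hE : ∀ a, 0 ≤ E a) {g : ℕ}
    (Q : Fin g → β) (hQ : Function.Injective Q) (h1 : ∀ i, fibreSum r (Q i) E = 1)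
    (htot : totalSum E = g) {b : β} (hb : ∀ i, Q i ≠ b) : fibreSum r b E = 0 := by
  have key : fibreSum r b E + ∑ i, fibreSum r (Q i) E ≤ totalSum E := by
    rw [totalSum_apply]
    simp only [fibreSum_apply]
    rw [Finset.sum_comm, ← Finset.sum_add_distrib]
    refine Finset.sum_le_sum fun a _ => ?_
    by_cases hab : r a = b
    · rw [if_pos hab, Finset.sum_eq_zero, add_zero]
      intro i _
      rw [if_neg]
      intro h
      exact hb i (h ▸ hab ▸ rfl)
    · rw [if_neg hab, zero_add]
      by_cases hex : ∃ i, r a = Q i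
      · obtain ⟨i₀, hi₀⟩ := hex
        rw [Finset.sum_eq_single i₀]
        · rw [if_pos hi₀]
        · intro i _ hne
          rw [if_neg]
          intro h
          exact hne (hQ (h.symm.trans hi₀))
        · simp
      · push Not at hex
        rw [Finset.sum_eq_zero]
        · exact hE a
        · intro i _
          rw [if_neg (hex i)]
  have h2 : ∑ i : Fin g, fibreSum r (Q i) E = g := by
    rw [Finset.sum_congr rfl fun i _ => h1 i]
    simp
  have h3 := fibreSum_nonneg r hE b
  rw [h2, htot] at key
  omega

/-- **Reconstruction.** -/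
theorem exists_points_of_fibreSum (r : α → β) (E : α →₀ ℤ) (hE : ∀ a, 0 ≤ E a) {g : ℕ}
    (Q : Fin g → β) (hQ : Function.Injective Q)
    (h1 : ∀ i, fibreSum r (Q i) E = 1) (h0 : ∀ b, (∀ i, Q i ≠ b) → fibreSum r b E = 0) :
    ∃ P : Fin g → α, (∀ i, r (P i) = Q i) ∧ E = ∑ i, Finsupp.single (P i) 1 := by
  -- every point of the support lies over some `Q i`, with multiplicity one
  have hA : ∀ a ∈ E.support, (∃ i, Q i = r a) ∧ E a = 1 := by
    intro a ha
    have hpos : 0 < E a := lt_of_le_of_ne (hE a) (Ne.symm (Finsupp.mem_support_iff.1 ha))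
    have hle := le_fibreSum r hE a
    by_cases hex : ∃ i, Q i = r a
    · obtain ⟨i, hi⟩ := hex
      rw [← hi, h1 i] at hle
      exact ⟨⟨i, hi⟩, by omega⟩
    · push Not at hex
      rw [h0 _ hex] at hle
      omega
  -- over each `Q i` there is a point of the support
  have hB : ∀ i, ∃ a ∈ E.support, r a = Q i := by
    intro i
    by_contra hne
    push Not at hne
    have h0 : fibreSum r (Q i) E = 0 := by
      rw [fibreSum_apply]
      exact Finset.sum_eq_zero fun a ha => by rw [if_neg (hne a ha)]
    rw [h1 i] at h0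
    exact one_ne_zero h0
  choose P hPs hPr using hB
  have hPinj : Function.Injective P := fun i j hij => hQ (by rw [← hPr i, ← hPr j, hij])
  -- uniqueness in the fibre
  have hC : ∀ a ∈ E.support, ∀ i, r a = Q i → a = P i := by
    intro a ha i hri
    by_contra hne
    have h1 : fibreSum r (Q i) E = 1 := h1 i
    rw [fibreSum_apply] at h1
    have h2 : E a + E (P i) ≤ ∑ a' ∈ E.support, if r a' = Q i then E a' else 0 := by
      have hsub : ({a, P i} : Finset α) ⊆ E.support := by
        intro y hy
        rcases Finset.mem_insert.1 hy with rfl | hy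
        · exact ha
        · rw [Finset.mem_singleton.1 hy]; exact hPs i
      have := Finset.sum_le_sum_of_subset_of_nonneg hsub
        (f := fun a' => if r a' = Q i then E a' else 0)
        (fun a' _ _ => by split_ifs <;> simp [hE a'])
      rw [Finset.sum_pair hne, if_pos hri, if_pos (hPr i)] at this
      exact this
    rw [h1, (hA a ha).2, (hA _ (hPs i)).2] at h2
    omega
  refine ⟨P, hPr, ?_⟩
  ext a
  rw [Finsupp.finsetSum_apply]
  simp only [Finsupp.single_apply]
  by_cases ha : a ∈ E.support
  · obtain ⟨⟨i₀, hi₀⟩, h1⟩ := hA a ha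
    have ha' : a = P i₀ := hC a ha i₀ hi₀.symm
    rw [h1, Finset.sum_eq_single i₀]
    · rw [if_pos ha'.symm]
    · intro i _ hne
      rw [if_neg]
      intro h'
      exact hne (hPinj (h'.trans ha'))
    · simp
  · rw [Finsupp.notMem_support_iff.1 ha]
    symm
    exact Finset.sum_eq_zero fun i _ => by
      rw [if_neg]
      rintro rfl
      exact ha (hPs i)

end Fermat.Agent.S33lib.Kum
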