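/-
S33lib / Kum / Root  (helper7)   — Project LSp, Track B, link "KumSub ⊆ germ image", special fibre.

`p^n`-th ROOTS IN NODAL SPACES.  Over a field `k` of characteristic `p`:
if `(φ₁^{p^n}, φ₂^{p^n}) ∈ nodalSpace 1 (p^n • E₁) (p^n • E₂)` then `(φ₁, φ₂) ∈ nodalSpace 1 E₁ E₂`
(pole orders divide, valuation rings are integrally closed, and the gluing condition descends
because the `p^n`-th power map of `k` is injective).
-/
import Fermat.Agent.LSb.Core.NodalRR
import Fermat.Agent.LSb.Core.Chart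
import Fermat.Agent.S18lib.Tame.ZeroPole

set_option autoImplicit false

noncomputable section

namespace Fermat.Agent.S33lib.Kum

open AlgebraicCurve Fermat.Agent.LSb

section OneCurve

variable {K F : Type*} [Field K] [Field F] [Algebra K F]

/-- `zᵐ ∈ L(m • E) ⟹ z ∈ L(E)`. -/
theorem mem_rr_of_pow_mem {m : ℕ} (hm : 0 < m) {E : Divisor K F} {z : F}
    (h : z ^ m ∈ riemannRochSpace ((m : ℤ) • E)) : z ∈ riemannRochSpace E := by
  have h1 : z ^ m * 1 ∈ riemannRochSpace ((m : ℤ) • E) := by rwa [mul_one]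
  have h2 := (pow_mul_mem_rr_iff hm (one_ne_zero : (1 : F) ≠ 0) (E := (0 : Divisor K F))
    (fun P => by simp) E z).1 h1
  rwa [zero_add] at h2

/-- valuation rings are integrally closed: `zᵐ` regular at `Q` ⟹ `z` regular at `Q`. -/
theorem mem_valuationSubring_of_pow_mem (Q : Place K F) {m : ℕ} (hm : 0 < m) {z : F}
    (h : z ^ m ∈ Q.toValuationSubring) : z ∈ Q.toValuationSubring := by
  rw [← S18lib.Tame.adicValuation_le_one_iff_mem] at h ⊢
  exact adicValuation_le_one_of_pow hm h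

end OneCurve

section Nodal

variable {k F₁ F₂ : Type*} [Field k] [Field F₁] [Field F₂] [Algebra k F₁] [Algebra k F₂]
variable {s : ℕ} {x₁ : Fin s → Place k F₁} {x₂ : Fin s → Place k F₂}

/-- **`p^n`-th roots in the (untwisted) nodal space.** -/
theorem mem_nodalSpace_of_pow_mem (p : ℕ) [ExpChar k p] (n : ℕ)
    (hd₁ : ∀ v : Place k F₁, v.deg = 1) (hd₂ : ∀ v : Place k F₂, v.deg = 1)
    {E₁ : Divisor k F₁} {E₂ : Divisor k F₂} {φ : F₁ × F₂}
    (h : (φ.1 ^ p ^ n, φ.2 ^ p ^ n) ∈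
      Core.nodalSpace x₁ x₂ 1 (((p ^ n : ℕ) : ℤ) • E₁) (((p ^ n : ℕ) : ℤ) • E₂)) :
    φ ∈ Core.nodalSpace x₁ x₂ 1 E₁ E₂ := by
  have hm : 0 < p ^ n := pow_pos (expChar_pos k p) n
  obtain ⟨h1, h2, h3⟩ := h
  refine ⟨mem_rr_of_pow_mem hm h1, mem_rr_of_pow_mem hm h2, fun c => ?_⟩
  obtain ⟨m1, m2, hv⟩ := (Core.gluedAt_iff hd₁ hd₂ c _ _).1 (h3 c)
  have r1 : φ.1 ∈ (x₁ c).toValuationSubring := mem_valuationSubring_of_pow_mem _ hm m1
  have r2 : φ.2 ∈ (x₂ c).toValuationSubring := mem_valuationSubring_of_pow_mem _ hm m2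
  refine (Core.gluedAt_iff hd₁ hd₂ c _ _).2 ⟨r1, r2, ?_⟩
  simp only [Pi.one_apply, one_mul] at hv ⊢
  rw [Core.valAt_pow _ (hd₂ _) r2, Core.valAt_pow _ (hd₁ _) r1] at hv
  exact iterateFrobenius_inj k p n (by simpa [iterateFrobenius_def] using hv)

end Nodal

end Fermat.Agent.S33lib.Kum
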