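/-
S33lib / Kum / Link  (helper7)   — Project LSp, Track B, item (G5): "KumSub ⊆ germ image".

ABSTRACT FORM.  `LinkCtx D g` lists exactly what the argument needs from the place-level reduction of
the nodal model (`NRedDatum`: (LC) local conservation in the residue discs of the centres, (RED)
reduction of `L(m E₀) ∩ O`) and from the germ (smooth centres in distinct residue discs, nodally
non-special).  Annulus points are never looked at: a degree count replaces them.  Conclusion: every class of the Kummer subgroup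
`kumSub D (p ^ n)` (`p` = residue characteristic) is `[∑ P_i - ∑ O_i]` with `P_i` in the residue
disc of the centre `O_i`.

Proof: `x = [D₀]`, `p^n D₀ = div z`, `z ≡ (1,1)`.  Take `0 ≠ f ∈ L(D₀ + E₀)` (Riemann), of sup-norm
`1`, `E' := D₀ + E₀ + div f ≥ 0`, `φ := f^{p^n} z`, `div φ = p^n (E' - E₀)`.  Then
`red φ = (f̄₁^{p^n}, f̄₂^{p^n}) ∈ NS(p^n Ē₀)`, so `(f̄₁, f̄₂) ∈ NS(Ē₀) = k` (`Root`), `red φ` is a
nonzero constant, conservation gives mass `1` of `E'` in each centre disc, `deg E' = g` leaves no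
mass elsewhere, and `Fibre` reconstructs `E' = ∑ P_i`.
-/
import Fermat.Agent.S33lib.Kum.Sub
import Fermat.Agent.S33lib.Kum.Root
import Fermat.Agent.S33lib.Kum.Fibre

set_option autoImplicit false

noncomputable section

namespace Fermat.Agent.S33lib.Kum

open AlgebraicCurve Fermat.Agent.LSb

variable {L : Type*} [Field L] {A : ValuationSubring L}
variable {F : Type*} [Field F] [Algebra L F]
variable {F₁ F₂ : Type*} [Field F₁] [Field F₂]
variable [Algebra (IsLocalRing.ResidueField A) F₁] [Algebra (IsLocalRing.ResidueField A) F₂]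

local notation "k" => IsLocalRing.ResidueField A

/-- **sup-norm normalisation**: a nonzero function has a constant multiple in `O₁ ∩ O₂` with a
nonzero reduction on at least one component. -/
theorem exists_const_mul_mem (D : NodalDatum A F F₁ F₂) {f : F} (hf : f ≠ 0) :
    ∃ c : L, c ≠ 0 ∧ algebraMap L F c * f ∈ D.V₁.O ∧ algebraMap L F c * f ∈ D.V₂.O ∧
      (D.V₁.redF (algebraMap L F c * f) ≠ 0 ∨ D.V₂.redF (algebraMap L F c * f) ≠ 0) := by
  obtain ⟨c₁, hc₁, u₁, hu₁⟩ := D.V₁.exists_const_mul_isUnit f hf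
  obtain ⟨c₂, hc₂, u₂, hu₂⟩ := D.V₂.exists_const_mul_isUnit f hf
  have hr₁ : D.V₁.redF (algebraMap L F c₁ * f) ≠ 0 := D.V₁.redF_ne_zero_iff.2 ⟨u₁, hu₁.symm⟩
  have hr₂ : D.V₂.redF (algebraMap L F c₂ * f) ≠ 0 := D.V₂.redF_ne_zero_iff.2 ⟨u₂, hu₂.symm⟩
  have hm₁ : algebraMap L F c₁ * f ∈ D.V₁.O := D.V₁.mem_of_redF_ne_zero hr₁
  have hm₂ : algebraMap L F c₂ * f ∈ D.V₂.O := D.V₂.mem_of_redF_ne_zero hr₂
  rcases A.mem_or_inv_mem (c₂ / c₁) with h | h
  · -- `c₂ f = (c₂ / c₁) (c₁ f) ∈ O₁`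
    refine ⟨c₂, hc₂, ?_, hm₂, Or.inr hr₂⟩
    have := D.V₁.smul_mem ⟨c₂ / c₁, h⟩ hm₁
    have e : algebraMap L F (((⟨c₂ / c₁, h⟩ : A) : L)) * (algebraMap L F c₁ * f) =
        algebraMap L F c₂ * f := by
      show algebraMap L F (c₂ / c₁) * (algebraMap L F c₁ * f) = _
      rw [map_div₀]
      have : algebraMap L F c₁ ≠ 0 := (map_ne_zero _).2 hc₁
      field_simp
    rwa [e] at this
  · refine ⟨c₁, hc₁, hm₁, ?_, Or.inl hr₁⟩
    rw [inv_div] at h
    have := D.V₂.smul_mem ⟨c₁ / c₂, h⟩ hm₂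
    have e : algebraMap L F (((⟨c₁ / c₂, h⟩ : A) : L)) * (algebraMap L F c₂ * f) =
        algebraMap L F c₁ * f := by
      show algebraMap L F (c₁ / c₂) * (algebraMap L F c₂ * f) = _
      rw [map_div₀]
      have : algebraMap L F c₂ ≠ 0 := (map_ne_zero _).2 hc₂
      field_simp
    rwa [e] at this

/-- **What the link needs** from the place-level reduction of the nodal model and from the germ. -/
structure LinkCtx (D : NodalDatum A F F₁ F₂) (g : ℕ) where
  /-- the partial place map (`none` = the place reduces to a node) -/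
  r : Place L F → Option (Place k F₁ ⊕ Place k F₂)
  /-- the centres of the germ -/
  ctr : Fin g → Place L F
  /-- their reductions -/
  Qc : Fin g → Place k F₁ ⊕ Place k F₂
  r_ctr : ∀ i, r (ctr i) = some (Qc i)
  /-- the centres lie in pairwise distinct residue discs -/
  Qc_inj : Function.Injective Qc
  /-- the reduction of `E₀ = ∑ ctr i` on the first component -/
  E₁ : Divisor k F₁
  /-- the reduction of `E₀` on the second component -/
  E₂ : Divisor k F₂
  /-- (RED) reduction of `L(m E₀) ∩ O` -/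
  red_mem : ∀ (m : ℕ) (φ : F), φ ∈ riemannRochSpace ((m : ℤ) • Core.sumPts ctr) →
    φ ∈ D.V₁.O → φ ∈ D.V₂.O →
      (D.V₁.redF φ, D.V₂.redF φ) ∈ Core.nodalSpace D.x₁ D.x₂ 1 ((m : ℤ) • E₁) ((m : ℤ) • E₂)
  /-- nodal non-speciality of the centres -/
  nonspecial : ∀ ψ ∈ Core.nodalSpace D.x₁ D.x₂ 1 E₁ E₂,
    ∃ c : k, ψ = (algebraMap k F₁ c, algebraMap k F₂ c)
  /-- (LC) in the discs of the centres, for functions reducing to a nonzero constant -/
  cons : ∀ (φ : F) (c : k), c ≠ 0 → D.V₁.redF φ = algebraMap k F₁ c →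
    D.V₂.redF φ = algebraMap k F₂ c → ∀ Dv : Divisor L F, (∀ P, Dv P = P.ord φ) →
      ∀ i, fibreSum r (some (Qc i)) Dv = 0

/-- the degree of a divisor on a curve all of whose places are rational is its total mass -/
theorem degree_eq_totalSum (hdeg : ∀ v : Place L F, v.deg = 1) (E : Divisor L F) :
    Divisor.degree E = totalSum E := by
  have : (Divisor.degree : Divisor L F →+ ℤ) = totalSum := by
    apply Finsupp.addHom_ext
    intro v n
    rw [Divisor.degree_single, hdeg, totalSum_single]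
    simp
  rw [this]

/-- **The link.** -/
theorem exists_points_of_mem_kumSub {D : NodalDatum A F F₁ F₂} {g g₁ g₂ : ℕ}
    (C : NodalCtx D g g₁ g₂) (X : LinkCtx D g) (p : ℕ) [ExpChar k p] (n : ℕ) {x : Pic0 L F}
    (hx : x ∈ kumSub D (p ^ n)) :
    ∃ P : Fin g → Place L F, (∀ i, X.r (P i) = some (X.Qc i)) ∧
      ∃ h : Core.sumPts P - Core.sumPts X.ctr ∈ Divisor.degZero (K := L) (F := F),
        x = Pic0.mk ⟨Core.sumPts P - Core.sumPts X.ctr, h⟩ := by
  classical
  obtain ⟨D₀, z, rfl, hz⟩ := hx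
  set m : ℕ := p ^ n with hm
  have hmpos : 0 < m := pow_pos (expChar_pos k p) n
  have hmZ : (0 : ℤ) < m := by exact_mod_cast hmpos
  set E₀ : Divisor L F := Core.sumPts X.ctr with hE₀
  have hdegE₀ : Divisor.degree E₀ = g := Core.degree_sumPts _ C.hF.deg_eq_one
  have hdegD₀ : Divisor.degree (D₀ : Divisor L F) = 0 := D₀.2
  -- Riemann: `L(D₀ + E₀) ≠ 0`
  have hpos : 0 < Module.finrank L (riemannRochSpace ((D₀ : Divisor L F) + E₀)) := by
    have h1 := C.hF.riemann_le ((D₀ : Divisor L F) + E₀)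
    rw [map_add, hdegD₀, hdegE₀] at h1
    have : (0 : ℤ) < (Module.finrank L (riemannRochSpace ((D₀ : Divisor L F) + E₀)) : ℤ) := by
      linarith
    exact_mod_cast this
  have := C.hF.finiteDimensional ((D₀ : Divisor L F) + E₀)
  obtain ⟨f₀, hf₀⟩ := Module.finrank_pos_iff_exists_ne_zero.1 hpos
  have hf₀' : (f₀ : F) ≠ 0 := fun h => hf₀ (Subtype.ext h)
  -- normalise
  obtain ⟨c, hc, hfO₁, hfO₂, hfred⟩ := exists_const_mul_mem D hf₀'
  set f : F := algebraMap L F c * (f₀ : F) with hf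
  have hf0 : f ≠ 0 := mul_ne_zero ((map_ne_zero _).2 hc) hf₀'
  have hfrr : f ∈ riemannRochSpace ((D₀ : Divisor L F) + E₀) := by
    have := Submodule.smul_mem _ c f₀.2
    rwa [Algebra.smul_def] at this
  have hford : ∀ P : Place L F, -((D₀ : Divisor L F) P + E₀ P) ≤ P.ord f := by
    intro P
    have := (S18lib.Cech.mem_rr_of_ne hf0).1 hfrr P
    rwa [Finsupp.add_apply] at this
  -- the divisor of `f`
  obtain ⟨Df, hDf, hDfdeg⟩ := C.hF.hasPrincipalDivisors.exists_divisor f hf0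
  set E' : Divisor L F := (D₀ : Divisor L F) + E₀ + Df with hE'
  have hE'nonneg : ∀ P, 0 ≤ E' P := by
    intro P
    rw [hE', Finsupp.add_apply, Finsupp.add_apply, hDf]
    linarith [hford P]
  -- the function `φ = f^m z`
  set φ : F := f ^ m * z with hφ
  have hφ0 : φ ≠ 0 := mul_ne_zero (pow_ne_zero _ hf0) hz.ne_zero
  have hφord : ∀ P : Place L F, P.ord φ = (m : ℤ) * (E' P - E₀ P) := by
    intro P
    rw [hφ, P.ord_mul (pow_ne_zero _ hf0) hz.ne_zero, S18lib.Cech.ord_pow, hz.ord_eq, hE',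
      Finsupp.add_apply, Finsupp.add_apply, hDf]
    ring
  have hφO₁ : φ ∈ D.V₁.O := D.V₁.O.mul_mem _ _ (D.V₁.O.pow_mem hfO₁ m) hz.mem₁
  have hφO₂ : φ ∈ D.V₂.O := D.V₂.O.mul_mem _ _ (D.V₂.O.pow_mem hfO₂ m) hz.mem₂
  have hφred₁ : D.V₁.redF φ = D.V₁.redF f ^ m := by
    rw [hφ, D.V₁.redF_mul (D.V₁.O.pow_mem hfO₁ m) hz.mem₁, D.V₁.redF_pow hfO₁, hz.red₁, mul_one]
  have hφred₂ : D.V₂.redF φ = D.V₂.redF f ^ m := by
    rw [hφ, D.V₂.redF_mul (D.V₂.O.pow_mem hfO₂ m) hz.mem₂, D.V₂.redF_pow hfO₂, hz.red₂, mul_one]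
  have hφrr : φ ∈ riemannRochSpace ((m : ℤ) • E₀) := by
    rw [S18lib.Cech.mem_rr_of_ne hφ0]
    intro P
    rw [hφord, Finsupp.smul_apply, smul_eq_mul]
    nlinarith [hE'nonneg P]
  -- reduce and extract the root
  have h1 := X.red_mem m φ hφrr hφO₁ hφO₂
  rw [hφred₁, hφred₂] at h1
  have h2 : (D.V₁.redF f, D.V₂.redF f) ∈ Core.nodalSpace D.x₁ D.x₂ 1 X.E₁ X.E₂ :=
    mem_nodalSpace_of_pow_mem p n C.hF₁.deg_eq_one C.hF₂.deg_eq_one (φ := (D.V₁.redF f, D.V₂.redF f))
      (by simpa [hm] using h1)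
  obtain ⟨c₀, hc₀⟩ := X.nonspecial _ h2
  have hc₀1 : D.V₁.redF f = algebraMap k F₁ c₀ := congrArg Prod.fst hc₀
  have hc₀2 : D.V₂.redF f = algebraMap k F₂ c₀ := congrArg Prod.snd hc₀
  have hc₀ne : c₀ ≠ 0 := by
    rintro rfl
    rw [map_zero] at hc₀1 hc₀2
    rcases hfred with h | h
    · exact h hc₀1
    · exact h hc₀2
  -- conservation in the discs of the centres
  have hcons := X.cons φ (c₀ ^ m) (pow_ne_zero _ hc₀ne)
    (by rw [hφred₁, hc₀1, map_pow]) (by rw [hφred₂, hc₀2, map_pow])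
  have hDv : ∀ P : Place L F, ((m : ℤ) • (E' - E₀)) P = P.ord φ := by
    intro P
    rw [hφord, Finsupp.smul_apply, Finsupp.sub_apply, smul_eq_mul]
  have hQinj : Function.Injective fun i => (some (X.Qc i) : Option (Place k F₁ ⊕ Place k F₂)) :=
    fun i j hij => X.Qc_inj (Option.some.inj hij)
  have hrctr : (fun i => X.r (X.ctr i)) = fun i => some (X.Qc i) := funext X.r_ctr
  have hfib1 : ∀ i, fibreSum X.r (some (X.Qc i)) E' = 1 := by
    intro i
    have h3 := hcons _ hDv i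
    rw [map_zsmul, map_sub, smul_eq_mul] at h3
    have h4 : fibreSum X.r (some (X.Qc i)) E' = fibreSum X.r (some (X.Qc i)) E₀ := by
      rcases mul_eq_zero.1 h3 with h | h
      · exact absurd h hmZ.ne'
      · exact sub_eq_zero.1 h
    rw [h4]
    exact fibreSum_sum_single_of_exists X.r X.ctr (by rw [hrctr]; exact hQinj) ⟨i, X.r_ctr i⟩
  -- degree count
  have htot : totalSum E' = g := by
    rw [← degree_eq_totalSum C.hF.deg_eq_one, hE', map_add, map_add, hdegD₀, hdegE₀, hDfdeg]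
    ring
  obtain ⟨P, hPr, hPE⟩ := exists_points_of_fibreSum X.r E' hE'nonneg
    (fun i => some (X.Qc i)) hQinj hfib1
    (fun b hb => fibreSum_eq_zero_of_totalSum X.r hE'nonneg _ hQinj hfib1 htot hb)
  have hPE' : E' = Core.sumPts P := hPE
  refine ⟨P, hPr, ?_⟩
  have hdeg : Core.sumPts P - Core.sumPts X.ctr ∈ Divisor.degZero (K := L) (F := F) := by
    rw [Divisor.mem_degZero, map_sub, Core.degree_sumPts _ C.hF.deg_eq_one,
      Core.degree_sumPts _ C.hF.deg_eq_one, sub_self]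
  refine ⟨hdeg, ?_⟩
  -- `D₀ = (E' - E₀) - div f`
  apply (QuotientAddGroup.eq).2
  rw [AddSubgroup.mem_addSubgroupOf]
  refine ⟨f, hf0, fun v => ?_⟩
  show (-(D₀ : Divisor L F) + (Core.sumPts P - Core.sumPts X.ctr)) v = v.ord f
  rw [← hPE', ← hE₀, hE', ← hDf v]
  simp only [Finsupp.add_apply, Finsupp.sub_apply, Finsupp.neg_apply]
  ring

end Fermat.Agent.S33lib.Kum
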