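/-
S33lib / Kum / NLink  (helper7)   — Project LSp, Track B, item (G5).

The link "KumSub ⊆ germ image" over helper3's `N.NRedDatum`: from (LC) + (RED) of the nodal reduction
datum and `g` nodally non-special centres in pairwise distinct smooth residue discs, every class of
`kumSub D.nod (p ^ n)` is `[∑ P_i - ∑ ctr_i]` with `D.r (P i) = D.r (ctr i)`.
-/
import Fermat.Agent.S33lib.Kum.Link
import Fermat.Agent.S33lib.N.Datum

set_option autoImplicit false

noncomputable section

namespace Fermat.Agent.S33lib.Kum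

open AlgebraicCurve Fermat.Agent.LSb Fermat.Agent.S18lib Fermat.Agent.S33lib.N

/-! ### push-forwards are fibre sums -/

section Push

variable {α β γ : Type*}

theorem mapDomain_apply_eq_fibreSum (r : α → β) (E : α →₀ ℤ) (b : β) :
    Finsupp.mapDomain r E b = fibreSum r b E := by
  classical
  have : (Finsupp.applyAddHom b).comp (Finsupp.mapDomain.addMonoidHom r) = fibreSum r b := by
    apply Finsupp.addHom_ext
    intro a n
    simp only [AddMonoidHom.comp_apply, Finsupp.mapDomain.addMonoidHom_apply,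
      Finsupp.mapDomain_single, Finsupp.applyAddHom_apply, Finsupp.single_apply, fibreSum_single]
  exact DFunLike.congr_fun this E

theorem pushO_eq_fibreSum (r : α → Option β) (E : α →₀ ℤ) (Q : β) :
    pushO r E Q = fibreSum r (some Q) E := by
  rw [pushO_apply, mapDomain_apply_eq_fibreSum]

theorem fibreSum_fst? (r : α → Option (β ⊕ γ)) (E : α →₀ ℤ) (Q : β) :
    fibreSum (fst? r) (some Q) E = fibreSum r (some (Sum.inl Q)) E := by
  rw [fibreSum_apply, fibreSum_apply]
  refine Finset.sum_congr rfl fun a _ => ?_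
  by_cases h : r a = some (Sum.inl Q)
  · rw [if_pos h, if_pos (fst?_eq_some.2 h)]
  · rw [if_neg h, if_neg (fun h' => h (fst?_eq_some.1 h'))]

theorem fibreSum_snd? (r : α → Option (β ⊕ γ)) (E : α →₀ ℤ) (Q : γ) :
    fibreSum (snd? r) (some Q) E = fibreSum r (some (Sum.inr Q)) E := by
  rw [fibreSum_apply, fibreSum_apply]
  refine Finset.sum_congr rfl fun a _ => ?_
  by_cases h : r a = some (Sum.inr Q)
  · rw [if_pos h, if_pos (snd?_eq_some.2 h)]
  · rw [if_neg h, if_neg (fun h' => h (snd?_eq_some.1 h'))]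

theorem pushO_nonneg (r : α → Option β) {E : α →₀ ℤ} (hE : ∀ a, 0 ≤ E a) (Q : β) :
    0 ≤ pushO r E Q := by
  rw [pushO_eq_fibreSum]
  exact fibreSum_nonneg r hE _

end Push

variable {L : Type*} [Field L] {A : ValuationSubring L}
variable {F : Type*} [Field F] [Algebra L F] [HasPrincipalDivisors L F]
variable {F₁ F₂ : Type*} [Field F₁] [Field F₂]
variable [Algebra (IsLocalRing.ResidueField A) F₁] [Algebra (IsLocalRing.ResidueField A) F₂]

local notation "k" => IsLocalRing.ResidueField A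

/-! ### nodal non-speciality: `ℓ_nod = 1` means "only the constants" -/

theorem one_mem_nodal (D : NRedDatum A F F₁ F₂) {E₁ : Divisor k F₁} {E₂ : Divisor k F₂}
    (h₁ : ∀ v, 0 ≤ E₁ v) (h₂ : ∀ v, 0 ≤ E₂ v) : ((1 : F₁), (1 : F₂)) ∈ D.nodal E₁ E₂ := by
  refine ⟨?_, ?_, fun c => ⟨1, ?_, ?_⟩⟩
  · rw [Cech.mem_rr_of_ne one_ne_zero]
    intro v
    have := h₁ v
    simp only [Place.ord_one]
    omega
  · rw [Cech.mem_rr_of_ne one_ne_zero]
    intro v
    have := h₂ v
    simp only [Place.ord_one]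
    omega
  · simpa using Core.vanishAt_zero (D.nod.x₁ c)
  · simpa using Core.vanishAt_zero (D.nod.x₂ c)

theorem nonspecial_of_ell_eq_one (D : NRedDatum A F F₁ F₂) {E₁ : Divisor k F₁} {E₂ : Divisor k F₂}
    (h₁ : ∀ v, 0 ≤ E₁ v) (h₂ : ∀ v, 0 ≤ E₂ v) (hell : D.ell E₁ E₂ = 1) :
    ∀ ψ ∈ D.nodal E₁ E₂, ∃ c : k, ψ = (algebraMap k F₁ c, algebraMap k F₂ c) := by
  intro ψ hψ
  set v : D.nodal E₁ E₂ := ⟨((1 : F₁), (1 : F₂)), one_mem_nodal D h₁ h₂⟩ with hv
  have hv0 : v ≠ 0 := by
    intro h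
    have := congrArg (fun w : D.nodal E₁ E₂ => (w : F₁ × F₂).1) h
    simp [hv] at this
  obtain ⟨c, hc⟩ := (finrank_eq_one_iff_of_nonzero' v hv0).1 hell ⟨ψ, hψ⟩
  refine ⟨c, ?_⟩
  have := congrArg (fun w : D.nodal E₁ E₂ => (w : F₁ × F₂)) hc
  simp only [hv, Submodule.coe_smul] at this
  rw [← this]
  ext
  · simp [Algebra.smul_def]
  · simp [Algebra.smul_def]

/-! ### the link context of an `NRedDatum` -/

/-- **The link context** attached to a nodal reduction datum and `g` centres. -/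
def linkCtx (D : NRedDatum A F F₁ F₂) {g : ℕ} (ctr : Fin g → Place L F) (Qc : Fin g → Pt A F₁ F₂)
    (hr : ∀ i, D.r (ctr i) = some (Qc i)) (hQ : Function.Injective Qc)
    (hns : ∀ ψ ∈ D.nodal (D.push₁ (Core.sumPts ctr)) (D.push₂ (Core.sumPts ctr)),
      ∃ c : k, ψ = (algebraMap k F₁ c, algebraMap k F₂ c)) : LinkCtx D.nod g where
  r := D.r
  ctr := ctr
  Qc := Qc
  r_ctr := hr
  Qc_inj := hQ
  E₁ := D.push₁ (Core.sumPts ctr)
  E₂ := D.push₂ (Core.sumPts ctr)
  red_mem := by
    intro m φ hφ h1 h2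
    have hsupp : ∀ P, ((m : ℤ) • Core.sumPts ctr) P ≠ 0 → D.r P ≠ none := by
      intro P hP
      by_cases hex : ∃ i, ctr i = P
      · obtain ⟨i, rfl⟩ := hex
        rw [hr i]
        simp
      · push Not at hex
        rw [Finsupp.smul_apply, Core.sumPts_apply_of_forall_ne hex, smul_zero] at hP
        exact absurd rfl hP
    have := D.red_mem _ hsupp φ hφ h1 h2
    rwa [map_zsmul, map_zsmul] at this
  nonspecial := hns
  cons := by
    intro φ c hc h1 h2 Dv hDv i
    have hDv' : Dv = divOf (K := L) φ := by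
      ext P
      rw [hDv, divOf_apply']
    have hne₁ : D.nod.V₁.redF φ ≠ 0 := by rw [h1]; exact (map_ne_zero _).2 hc
    have hne₂ : D.nod.V₂.redF φ ≠ 0 := by rw [h2]; exact (map_ne_zero _).2 hc
    rw [hDv']
    rcases hQi : Qc i with Q | Q
    · have := D.cons₁ φ hne₁ (ctr i) Q (by rw [hr i, hQi])
      rw [h1, Cech.ord_const, pushO_eq_fibreSum, fibreSum_fst?] at this
      exact this
    · have := D.cons₂ φ hne₂ (ctr i) Q (by rw [hr i, hQi])
      rw [h2, Cech.ord_const, pushO_eq_fibreSum, fibreSum_snd?] at this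
      exact this

/-- **KumSub ⊆ germ image**, over an `NRedDatum`. -/
theorem exists_points_of_mem_kumSub_nRed (D : NRedDatum A F F₁ F₂) {g g₁ g₂ : ℕ}
    (C : NodalCtx D.nod g g₁ g₂) (ctr : Fin g → Place L F) (Qc : Fin g → Pt A F₁ F₂)
    (hr : ∀ i, D.r (ctr i) = some (Qc i)) (hQ : Function.Injective Qc)
    (hell : D.ell (D.push₁ (Core.sumPts ctr)) (D.push₂ (Core.sumPts ctr)) = 1)
    (p : ℕ) [ExpChar k p] (n : ℕ) {x : Pic0 L F} (hx : x ∈ kumSub D.nod (p ^ n)) :
    ∃ P : Fin g → Place L F, (∀ i, D.r (P i) = some (Qc i)) ∧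
      ∃ h : Core.sumPts P - Core.sumPts ctr ∈ Divisor.degZero (K := L) (F := F),
        x = Pic0.mk ⟨Core.sumPts P - Core.sumPts ctr, h⟩ := by
  have hns := nonspecial_of_ell_eq_one D
    (fun v => pushO_nonneg _ (Core.sumPts_nonneg ctr) v)
    (fun v => pushO_nonneg _ (Core.sumPts_nonneg ctr) v) hell
  exact exists_points_of_mem_kumSub C (linkCtx D ctr Qc hr hQ hns) p n hx

end Fermat.Agent.S33lib.Kum
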