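/-
S33lib / Kum / OneStep  (helper7)   — Project LSp, Track B.

The UN-NORMALISED Kummer subgroup `kumSub' D m` (functions reducing to arbitrary nonzero CONSTANTS on
both components) and the ONE-STEP lemmas, for an inertial `σ`:

* `(σ - 1) x ∈ kumSub' D m` for every `x` killed by `m`;
* `(σ - 1) x ∈ kumSub D m`  for every `x ∈ kumSub' D m`.

(`kumSub' / kumSub` is the `m`-torsion of the torus of the special fibre; for `m = p ^ n`, `p` the
residue characteristic of a perfect residue field, the two groups coincide.)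
-/
import Fermat.Agent.S33lib.Kum.Sub

set_option autoImplicit false

noncomputable section

namespace Fermat.Agent.S33lib.Kum

open AlgebraicCurve Fermat.Agent.LSb

variable {L : Type*} [Field L] {A : ValuationSubring L}
variable {F : Type*} [Field F] [Algebra L F]
variable {F₁ F₂ : Type*} [Field F₁] [Field F₂]
variable [Algebra (IsLocalRing.ResidueField A) F₁] [Algebra (IsLocalRing.ResidueField A) F₂]

/-- products of Kummer units -/
theorem isKummerUnit_mul {D : NodalDatum A F F₁ F₂} {m : ℕ} {u v : F} (hu : IsKummerUnit D m u)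
    (hv : IsKummerUnit D m v) : IsKummerUnit D m (u * v) where
  ne_zero := mul_ne_zero hu.ne_zero hv.ne_zero
  dvd_ord P := by
    rw [P.ord_mul hu.ne_zero hv.ne_zero]
    exact dvd_add (hu.dvd_ord P) (hv.dvd_ord P)
  red₁ := by
    obtain ⟨b, hb, h⟩ := hu.red₁
    obtain ⟨b', hb', h'⟩ := hv.red₁
    exact ⟨b * b', mul_ne_zero hb hb', by rw [D.V₁.redF_mul hu.mem₁ hv.mem₁, h, h', map_mul]⟩
  red₂ := by
    obtain ⟨b, hb, h⟩ := hu.red₂
    obtain ⟨b', hb', h'⟩ := hv.red₂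
    exact ⟨b * b', mul_ne_zero hb hb', by rw [D.V₂.redF_mul hu.mem₂ hv.mem₂, h, h', map_mul]⟩

/-- **The un-normalised Kummer subgroup.** -/
def kumSub' (D : NodalDatum A F F₁ F₂) (m : ℕ) : AddSubgroup (Pic0 L F) where
  carrier := {x | ∃ (D₀ : Divisor.degZero (K := L) (F := F)) (z : F),
    Pic0.mk D₀ = x ∧ IsKummerUnit D m z ∧ ∀ P : Place L F, P.ord z = (m : ℤ) * (D₀ : Divisor L F) P}
  zero_mem' := ⟨0, 1, rfl, IsKummerUnit.one D m, fun P => by simp⟩
  add_mem' := by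
    rintro x y ⟨D₀, z, rfl, h, ho⟩ ⟨D₀', z', rfl, h', ho'⟩
    refine ⟨D₀ + D₀', z * z', rfl, isKummerUnit_mul h h', fun P => ?_⟩
    rw [P.ord_mul h.ne_zero h'.ne_zero, ho, ho']
    show _ = (m : ℤ) * ((D₀ : Divisor L F) + (D₀' : Divisor L F)) P
    rw [Finsupp.add_apply, mul_add]
  neg_mem' := by
    rintro x ⟨D₀, z, rfl, h, ho⟩
    refine ⟨-D₀, z⁻¹, rfl, h.inv, fun P => ?_⟩
    rw [P.ord_inv, ho]
    show _ = (m : ℤ) * (-(D₀ : Divisor L F)) P
    rw [Finsupp.neg_apply, mul_neg]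

theorem kumSub_le_kumSub' (D : NodalDatum A F F₁ F₂) (m : ℕ) : kumSub D m ≤ kumSub' D m := by
  rintro x ⟨D₀, z, rfl, h⟩
  exact ⟨D₀, z, rfl, h.isKummerUnit, h.ord_eq⟩

/-- **one step, first half**: `(σ - 1) x ∈ kumSub' D m` for `x` killed by `m`. -/
theorem smul_sub_mem_kumSub' {D : NodalDatum A F F₁ F₂} {σ : SemilinearAut L F}
    (hσ : D.IsInertial σ) {m : ℕ} {x : Pic0 L F} (hx : m • x = 0) : σ • x - x ∈ kumSub' D m := by
  obtain ⟨D₀, rfl⟩ := Pic0.mk_surjective x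
  have hprinc : m • (D₀ : Divisor L F) ∈ Divisor.principal (K := L) (F := F) := by
    have h1 : Pic0.mk (m • D₀) = 0 := hx
    have h2 := (QuotientAddGroup.eq_zero_iff _).1 h1
    rw [AddSubgroup.mem_addSubgroupOf] at h2
    simpa using h2
  obtain ⟨f, hf0, hfdiv⟩ := hprinc
  have hσf0 : σ • f ≠ 0 := by
    rw [SemilinearAut.smul_def]
    exact (map_ne_zero _).2 hf0
  obtain ⟨hb₁, hb₂⟩ := kummerStatement D σ hσ f hf0
  have hudiv : ∀ P : Place L F, P.ord (σ • f * f⁻¹) =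
      (m : ℤ) * (σ • (D₀ : Divisor L F) - (D₀ : Divisor L F)) P := by
    intro P
    rw [P.ord_mul hσf0 (inv_ne_zero hf0), P.ord_inv, NodalDatum.IsInertial.ord_smul_eq,
      ← hfdiv, ← hfdiv, Finsupp.sub_apply, SemilinearAut.divisor_smul_apply,
      Finsupp.smul_apply, Finsupp.smul_apply, nsmul_eq_mul, nsmul_eq_mul]
    ring
  refine ⟨SemilinearAut.degZeroSMulHom σ D₀ - D₀, σ • f * f⁻¹, ?_,
    ⟨mul_ne_zero hσf0 (inv_ne_zero hf0), fun P => ⟨_, hudiv P⟩, hb₁, hb₂⟩, hudiv⟩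
  rw [SemilinearAut.pic0_smul_mk σ D₀]
  rfl

/-- **one step, second half**: `(σ - 1) x ∈ kumSub D m` for `x ∈ kumSub' D m`. -/
theorem smul_sub_mem_kumSub {D : NodalDatum A F F₁ F₂} {σ : SemilinearAut L F}
    (hσ : D.IsInertial σ) {m : ℕ} {x : Pic0 L F} (hx : x ∈ kumSub' D m) :
    σ • x - x ∈ kumSub D m := by
  obtain ⟨D₀, u, rfl, hu, hudiv⟩ := hx
  obtain ⟨hKz, hz₁, hz₂⟩ := hσ.isKummerUnit_div hu
  have hσu0 : σ • u ≠ 0 := by
    rw [SemilinearAut.smul_def]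
    exact (map_ne_zero _).2 hu.ne_zero
  refine ⟨SemilinearAut.degZeroSMulHom σ D₀ - D₀, σ • u * u⁻¹, ?_, hKz.ne_zero, fun P => ?_,
    hz₁, hz₂⟩
  · rw [SemilinearAut.pic0_smul_mk σ D₀]
    rfl
  · have key : ((SemilinearAut.degZeroSMulHom σ D₀ - D₀ : Divisor.degZero (K := L) (F := F)) :
        Divisor L F) P = (D₀ : Divisor L F) (σ⁻¹ • P) - (D₀ : Divisor L F) P := by
      show (σ • (D₀ : Divisor L F) - (D₀ : Divisor L F)) P = _
      rw [Finsupp.sub_apply, SemilinearAut.divisor_smul_apply]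
    rw [P.ord_mul hσu0 (inv_ne_zero hu.ne_zero), P.ord_inv, NodalDatum.IsInertial.ord_smul_eq,
      hudiv, hudiv, key]
    ring

end Fermat.Agent.S33lib.Kum
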